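import Fermat.Agent.MAZ.Ell.Tau

/-!
# MAZ / Ell / [E7]  every lattice is homothetic to `ℤ + ℤ τ`; adapted bases; `Δ(Λ) ≠ 0`

Mathlib only (+ `Ell/Scale`, `Ell/Tau`).

* `exists_tau`: `c := ω₁`, `τ := ± ω₂/ω₁` (the sign making `Im > 0`; `Im (ω₂/ω₁) ≠ 0` by `L.indep`).
* `disc_ne_zero`: `exists_tau`, `g₂_congr`, `g₃_congr`, `g₂_smulPair`, `g₃_smulPair`, `disc_tauPair`,
  `ModularForm.discriminant_ne_zero`.
* `exists_tau_of_torsion`: `N z = a ω₁ + b ω₂` (`PeriodPair.mem_lattice`), `g := gcd(a,b)`; `N ∤ g`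
  because `z ∉ Λ` (in particular `g ≠ 0`); `a = g a'`, `b = g b'`, Bezout `a' t - b' s = 1`;
  `ω₁' := a' ω₁ + b' ω₂`, `ω₂' := s ω₁ + t ω₂` is another `ℤ`-basis of `Λ`;
  `c := ω₁'`, `τ := ± ω₂'/ω₁'`, `d := g`, `z = g ω₁'/N`.
-/

set_option autoImplicit false

open UpperHalfPlane
open scoped PeriodPair

namespace Fermat.Agent.MAZ.Ell

theorem lattice_smulPair_tauPair {c : ℂ} (hc : c ≠ 0) (τ : ℍ) :
    (smulPair c hc (tauPair τ)).lattice = Submodule.span ℤ {c, c * (τ : ℂ)} := by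
  show Submodule.span ℤ {c * 1, c * (τ : ℂ)} = _
  rw [mul_one]

theorem ω₁_ne_zero (L : PeriodPair) : L.ω₁ ≠ 0 := by
  intro h
  have := LinearIndependent.pair_iff.mp L.indep 1 0 (by simp [h])
  exact one_ne_zero this.1

theorem im_div_ne_zero (L : PeriodPair) : (L.ω₂ / L.ω₁).im ≠ 0 := by
  intro h
  have h1 : L.ω₂ / L.ω₁ = ((L.ω₂ / L.ω₁).re : ℂ) := by
    apply Complex.ext <;> simp [h]
  have h2 : L.ω₂ = ((L.ω₂ / L.ω₁).re : ℂ) * L.ω₁ := by
    rw [← h1, div_mul_cancel₀ _ (ω₁_ne_zero L)]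
  have := LinearIndependent.pair_iff.mp L.indep ((L.ω₂ / L.ω₁).re) (-1) (by
    simp only [Complex.real_smul]
    rw [← h2]
    simp)
  have h3 := this.2
  norm_num at h3

theorem exists_tau' (L : PeriodPair) :
    ∃ τ : ℍ, L.lattice = (smulPair L.ω₁ (ω₁_ne_zero L) (tauPair τ)).lattice := by
  have h0 := ω₁_ne_zero L
  rcases lt_or_gt_of_ne (im_div_ne_zero L) with h | h
  · refine ⟨⟨-(L.ω₂ / L.ω₁), by simpa using h⟩, ?_⟩
    rw [lattice_smulPair_tauPair]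
    show Submodule.span ℤ {L.ω₁, L.ω₂} = Submodule.span ℤ {L.ω₁, L.ω₁ * (-(L.ω₂ / L.ω₁))}
    have : L.ω₁ * (-(L.ω₂ / L.ω₁)) = - L.ω₂ := by field_simp
    rw [this]
    ext x
    simp only [Submodule.mem_span_pair]
    constructor
    · rintro ⟨a, b, rfl⟩
      exact ⟨a, -b, by simp⟩
    · rintro ⟨a, b, rfl⟩
      exact ⟨a, -b, by simp⟩
  · refine ⟨⟨L.ω₂ / L.ω₁, h⟩, ?_⟩
    rw [lattice_smulPair_tauPair]
    show Submodule.span ℤ {L.ω₁, L.ω₂} = Submodule.span ℤ {L.ω₁, L.ω₁ * (L.ω₂ / L.ω₁)}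
    have : L.ω₁ * (L.ω₂ / L.ω₁) = L.ω₂ := by field_simp
    rw [this]

theorem exists_tau (L : PeriodPair) :
    ∃ (c : ℂ) (hc : c ≠ 0) (τ : ℍ), L.lattice = (smulPair c hc (tauPair τ)).lattice := by
  obtain ⟨τ, h⟩ := exists_tau' L
  exact ⟨_, _, τ, h⟩

theorem disc_ne_zero (L : PeriodPair) : L.g₂ ^ 3 - 27 * L.g₃ ^ 2 ≠ 0 := by
  obtain ⟨c, hc, τ, h⟩ := exists_tau L
  rw [g₂_congr h, g₃_congr h, g₂_smulPair, g₃_smulPair]
  have h1 : ((c ^ 4)⁻¹ * (tauPair τ).g₂) ^ 3 - 27 * ((c ^ 6)⁻¹ * (tauPair τ).g₃) ^ 2 =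
      (c ^ 12)⁻¹ * ((tauPair τ).g₂ ^ 3 - 27 * (tauPair τ).g₃ ^ 2) := by
    field_simp
  rw [h1, disc_tauPair]
  have hπ : (Real.pi : ℂ) ≠ 0 := by exact_mod_cast Real.pi_ne_zero
  have hΔ := ModularForm.discriminant_ne_zero τ
  exact mul_ne_zero (inv_ne_zero (pow_ne_zero _ hc))
    (mul_ne_zero (pow_ne_zero _ (mul_ne_zero two_ne_zero hπ)) hΔ)

/-- change of `ℤ`-basis. -/
def basisChange (L : PeriodPair) (a b s t : ℤ) (h : a * t - b * s = 1) : PeriodPair where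
  ω₁ := a * L.ω₁ + b * L.ω₂
  ω₂ := s * L.ω₁ + t * L.ω₂
  indep := by
    rw [LinearIndependent.pair_iff]
    intro x y hxy
    have h1 := LinearIndependent.pair_iff.mp L.indep (x * a + y * s) (x * b + y * t) (by
      simp only [Complex.real_smul] at hxy ⊢
      push_cast
      linear_combination hxy)
    have hR : (a : ℝ) * t - b * s = 1 := by exact_mod_cast h
    constructor
    · linear_combination (t : ℝ) * h1.1 - (s : ℝ) * h1.2 - x * hR
    · linear_combination (a : ℝ) * h1.2 - (b : ℝ) * h1.1 - y * hR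

theorem lattice_basisChange (L : PeriodPair) (a b s t : ℤ) (h : a * t - b * s = 1) :
    (basisChange L a b s t h).lattice = L.lattice := by
  have hC : (a : ℂ) * t - b * s = 1 := by exact_mod_cast h
  apply le_antisymm
  · refine Submodule.span_le.2 ?_
    rintro x (rfl | rfl)
    · exact PeriodPair.mem_lattice.2 ⟨a, b, rfl⟩
    · exact PeriodPair.mem_lattice.2 ⟨s, t, rfl⟩
  · refine Submodule.span_le.2 ?_
    rintro x (rfl | rfl)
    · refine PeriodPair.mem_lattice.2 ⟨t, -b, ?_⟩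
      simp only [basisChange]
      push_cast
      linear_combination L.ω₁ * hC
    · refine PeriodPair.mem_lattice.2 ⟨-s, a, ?_⟩
      simp only [basisChange]
      push_cast
      linear_combination L.ω₂ * hC

theorem exists_tau_of_torsion (L : PeriodPair) (N : ℕ) (hN : N.Prime) {z : ℂ}
    (hz : z ∉ L.lattice) (hNz : (N : ℂ) * z ∈ L.lattice) :
    ∃ (c : ℂ) (hc : c ≠ 0) (τ : ℍ) (d : ℤ), ¬ (N : ℤ) ∣ d ∧
      L.lattice = (smulPair c hc (tauPair τ)).lattice ∧ z = c * ((d : ℂ) / N) := by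
  have hN0 : (N : ℂ) ≠ 0 := by exact_mod_cast hN.ne_zero
  obtain ⟨a, b, hab⟩ := PeriodPair.mem_lattice.1 hNz
  have hg : 0 < Int.gcd a b := by
    rcases Nat.eq_zero_or_pos (Int.gcd a b) with h0 | h0
    · exfalso
      rw [Int.gcd_eq_zero_iff] at h0
      rw [h0.1, h0.2] at hab
      simp only [Int.cast_zero, zero_mul, add_zero] at hab
      have : z = 0 := by
        rcases mul_eq_zero.1 hab.symm with h | h
        · exact absurd h hN0
        · exact h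
      exact hz (this ▸ L.lattice.zero_mem)
    · exact h0
  obtain ⟨a', b', hcop, ha, hb⟩ := Int.exists_gcd_one hg
  obtain ⟨u, v, huv⟩ := Int.isCoprime_iff_gcd_eq_one.2 hcop
  have hdet : a' * u - b' * (-v) = 1 := by linear_combination huv
  obtain ⟨τ, hτ⟩ := exists_tau' (basisChange L a' b' (-v) u hdet)
  rw [lattice_basisChange] at hτ
  have hz' : (N : ℂ) * z = (Int.gcd a b : ℤ) * (basisChange L a' b' (-v) u hdet).ω₁ := by
    rw [← hab]
    simp only [basisChange]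
    have ha' : (a : ℂ) = a' * ((Int.gcd a b : ℤ) : ℂ) := by exact_mod_cast ha
    have hb' : (b : ℂ) = b' * ((Int.gcd a b : ℤ) : ℂ) := by exact_mod_cast hb
    rw [ha', hb']
    ring
  refine ⟨_, _, τ, (Int.gcd a b : ℤ), ?_, hτ, ?_⟩
  · rintro ⟨g', hg'⟩
    apply hz
    rw [hg'] at hz'
    push_cast at hz'
    have : z = g' * (basisChange L a' b' (-v) u hdet).ω₁ := by
      apply mul_left_cancel₀ hN0
      rw [hz']
      ring
    rw [this, ← lattice_basisChange L a' b' (-v) u hdet, ← zsmul_eq_mul]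
    exact Submodule.smul_mem _ _ (PeriodPair.ω₁_mem_lattice _)
  · field_simp
    rw [mul_comm z, hz']
    ring

end Fermat.Agent.MAZ.Ell
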