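import Fermat.Agent.MAZ.Ell.Seq
import Fermat.Agent.S05.Formulas

/-!
# MAZ / Ell / [E10]  the multiples of a point of exact order `N` form an `IsTorsionSeq`

`X k := x(kQ) + b₂/12`, `a := c₄/12`, `b := c₆/216`.  Pure algebra from `S05.Formulas`
(`xc_dbl`, `xc_add_add_xc_sub`, `xc_eq_iff`, `add_self_eq_zero_iff`, `psi2_sq`, `xc_neg`).
-/

set_option autoImplicit false

open WeierstrassCurve WeierstrassCurve.Affine WeierstrassCurve.Affine.Point
open Fermat.Agent.S05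

namespace Fermat.Agent.MAZ.Ell

variable {F : Type*} [Field F] [CharZero F] [DecidableEq F] {W : WeierstrassCurve.Affine F}

/-- `Ψ₂² = 4x³ + b₂x² + 2b₄x + b₆`. -/
def psiX (W : WeierstrassCurve.Affine F) (x : F) : F :=
  4 * x ^ 3 + W.b₂ * x ^ 2 + 2 * W.b₄ * x + W.b₆

omit [DecidableEq F] in
theorem psiX_eq (x : F) :
    4 * (x + W.b₂ / 12) ^ 3 - W.c₄ / 12 * (x + W.b₂ / 12) - W.c₆ / 216 = psiX W x := by
  simp only [psiX, WeierstrassCurve.c₄, WeierstrassCurve.c₆]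
  field_simp
  ring

omit [DecidableEq F] in
theorem disc_eq : (W.c₄ / 12) ^ 3 - 27 * (W.c₆ / 216) ^ 2 = W.Δ := by
  have h := W.c_relation
  linear_combination (-1 / 1728 : F) * h

/-- `Λ(E, Q) = N¹² (∏_{k=1}^{N-1} Ψ(x(kQ)))² / Δ^{N-1}`. -/
def lam (W : WeierstrassCurve.Affine F) (N : ℕ) (Q : W.Point) : F :=
  (N : F) ^ 12 * (∏ k ∈ Finset.Ico 1 N, psiX W (xc (k • Q))) ^ 2 / W.Δ ^ (N - 1)

omit [CharZero F] in
theorem psiX_ne_zero_of {P : W.Point} (hP : P ≠ 0) (h2 : P + P ≠ 0) : psiX W (xc P) ≠ 0 := by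
  have h := psi2_sq hP
  have h3 : 2 * yc P + W.a₁ * xc P + W.a₃ ≠ 0 := fun h0 => h2 ((add_self_eq_zero_iff hP).mpr h0)
  rw [psiX, ← h]
  exact pow_ne_zero 2 h3

omit [CharZero F] in
theorem nsmul_ne_zero_of_order {N : ℕ} {Q : W.Point} (hQ : addOrderOf Q = N) {k : ℕ}
    (hk : ¬ N ∣ k) : k • Q ≠ 0 := by
  intro h
  exact hk (hQ ▸ addOrderOf_dvd_of_nsmul_eq_zero h)

theorem isTorsionSeq_of_point (N : ℕ) (hN : 3 ≤ N) (Q : W.Point) (hQ : addOrderOf Q = N) :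
    IsTorsionSeq N (W.c₄ / 12) (W.c₆ / 216) (fun k => xc (k • Q) + W.b₂ / 12) := by
  have hnz : ∀ k : ℕ, 0 < k → k < N → k • Q ≠ 0 := fun k h0 h1 =>
    nsmul_ne_zero_of_order hQ (Nat.not_dvd_of_pos_of_lt h0 h1)
  have hQ0 : Q ≠ 0 := by
    have := hnz 1 one_pos (by omega)
    rwa [one_nsmul] at this
  have hQ2 : Q + Q ≠ 0 := by
    have := hnz 2 two_pos (by omega)
    rwa [two_nsmul] at this
  have hne : ∀ k : ℕ, 2 ≤ k → k + 1 ≤ N - 1 → xc (k • Q) ≠ xc Q := by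
    intro k h2 hk
    apply xc_ne_of_add_sub_ne_zero (hnz k (by omega) (by omega)) hQ0
    · have := hnz (k + 1) (by omega) (by omega)
      rwa [succ_nsmul] at this
    · have := hnz (k - 1) (by omega) (by omega)
      rwa [sub_nsmul Q (by omega : 1 ≤ k), one_nsmul, ← sub_eq_add_neg] at this
  refine ⟨?_, ?_, ?_, ?_, ?_⟩
  · simp only [one_nsmul]
    rw [psiX_eq]
    exact psiX_ne_zero_of hQ0 hQ2
  · simp only [one_nsmul, two_nsmul]
    rw [psiX_eq]
    have h := xc_dbl hQ0 hQ2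
    have hb := W.b_relation
    simp only [psiX, WeierstrassCurve.c₄]
    linear_combination h - (1 / 4 : F) * hb
  · intro k h2 hk
    have h := xc_add_add_xc_sub (hnz k (by omega) (by omega)) hQ0 (hne k h2 hk)
    have e1 : (k + 1) • Q = k • Q + Q := succ_nsmul Q k
    have e2 : (k - 1) • Q = k • Q - Q := by
      rw [sub_nsmul Q (by omega : 1 ≤ k), one_nsmul, ← sub_eq_add_neg]
    simp only [one_nsmul, e1, e2]
    simp only [WeierstrassCurve.c₄, WeierstrassCurve.c₆]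
    linear_combination h
  · intro k h2 hk h
    simp only [one_nsmul] at h
    exact hne k h2 hk (add_right_cancel h)
  · simp only [one_nsmul]
    have : (N - 1) • Q = -Q := by
      rw [sub_nsmul Q (by omega : 1 ≤ N), one_nsmul, ← hQ, addOrderOf_nsmul_eq_zero, zero_add]
    rw [this, xc_neg]

theorem psiX_ne_zero (N : ℕ) (hN : Odd N) (Q : W.Point) (hQ : addOrderOf Q = N) (k : ℕ)
    (hk : ¬ N ∣ k) : psiX W (xc (k • Q)) ≠ 0 := by
  apply psiX_ne_zero_of (nsmul_ne_zero_of_order hQ hk)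
  rw [← add_nsmul]
  apply nsmul_ne_zero_of_order hQ
  intro h
  rw [← two_mul] at h
  exact hk ((Nat.Coprime.dvd_mul_left (Nat.Coprime.symm (Nat.coprime_two_left.mpr hN))).mp h)

end Fermat.Agent.MAZ.Ell
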