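import Mathlib

/-!
# MAZ / Ell / [E0]  `x`-only description of a point of exact order `N` on `y² = 4x³ - a x - b`

`X k` plays the role of `x(kQ)`, `1 ≤ k ≤ N - 1`.
-/

set_option autoImplicit false

namespace Fermat.Agent.MAZ.Ell

/-- The `x`-only addition formulas satisfied by the multiples of a point of exact order `N`. -/
structure IsTorsionSeq {F : Type*} [Field F] (N : ℕ) (a b : F) (X : ℕ → F) : Prop where
  h1 : 4 * X 1 ^ 3 - a * X 1 - b ≠ 0
  hdup : (X 2 + 2 * X 1) * (4 * X 1 ^ 3 - a * X 1 - b) = (6 * X 1 ^ 2 - a / 2) ^ 2 / 4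
  hrec : ∀ k : ℕ, 2 ≤ k → k + 1 ≤ N - 1 →
      (X (k + 1) + X (k - 1)) * (X k - X 1) ^ 2 = (2 * X k * X 1 - a / 2) * (X k + X 1) - b
  hne : ∀ k : ℕ, 2 ≤ k → k + 1 ≤ N - 1 → X k ≠ X 1
  hend : X (N - 1) = X 1

theorem IsTorsionSeq.map {F F' : Type*} [Field F] [Field F'] (φ : F →+* F') {N : ℕ} {a b : F}
    {X : ℕ → F} (h : IsTorsionSeq N a b X) : IsTorsionSeq N (φ a) (φ b) (fun k => φ (X k)) where
  h1 := by
    have := h.h1
    intro h0
    apply this
    apply φ.injective
    simpa [map_ofNat] using h0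
  hdup := by
    have := congrArg φ h.hdup
    simpa [map_ofNat] using this
  hrec k h2 hk := by
    have := congrArg φ (h.hrec k h2 hk)
    simpa [map_ofNat] using this
  hne k h2 hk h0 := h.hne k h2 hk (φ.injective h0)
  hend := congrArg φ h.hend

end Fermat.Agent.MAZ.Ell
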