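import Fermat.Agent.MAZ.Ell.Inj
import Fermat.Agent.MAZ.Ell.Seq

/-!
# MAZ / Ell / [E9]  a torsion point of the cubic is `℘` of a torsion point of `ℂ/Λ` (`x`-only)

`X k` = the (shifted) `x`-coordinate of `k Q`, `Q` of exact order `N ≥ 3` on `y² = 4x³ - g₂ x - g₃`.
The hypotheses `IsTorsionSeq` (`Ell/Seq.lean`: `h1 hdup hrec hne hend`) are the `x`-only addition
formulas (`S05.Formulas`, translated in `Ell/Curve.lean`).

PROOF.  `wp_surj` gives `z ∉ Λ` with `℘ z = X 1`.  `℘'(z)² = Ψ(X 1) ≠ 0` so `2z ∉ Λ`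
(`wp'_eq_zero_of_two_mul_mem`), and `dup_formula` + `hdup` give `℘(2z) = X 2`.
Induction on `k` (`2 ≤ k`, `k + 1 ≤ N - 1`): we know `(k-1)z, kz ∉ Λ`, `℘((k-1)z) = X (k-1)`,
`℘(kz) = X k ≠ X 1 = ℘ z`.  Then `(k+1) z ∉ Λ` (else `kz ≡ -z`, `℘(kz) = ℘ z`), and `add_add_sub`
for `(kz, z)` + `hrec` give `℘((k+1)z) = X (k+1)` (cancel `(X k - X 1)² ≠ 0`).
Finally `℘((N-1)z) = X (N-1) = X 1 = ℘ z`, so by `wp_inj` `(N-2) z ∈ Λ` (excluded) or `N z ∈ Λ`.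
-/

set_option autoImplicit false

open scoped PeriodPair

namespace Fermat.Agent.MAZ.Ell

variable (L : PeriodPair)

theorem exists_torsion_param (hΔ : L.g₂ ^ 3 - 27 * L.g₃ ^ 2 ≠ 0) (N : ℕ) (hN : 3 ≤ N) (X : ℕ → ℂ)
    (hX : IsTorsionSeq N L.g₂ L.g₃ X) :
    ∃ z : ℂ, (N : ℂ) * z ∈ L.lattice ∧
      ∀ k : ℕ, 1 ≤ k → k ≤ N - 1 → (k : ℂ) * z ∉ L.lattice ∧ ℘[L] ((k : ℂ) * z) = X k := by
  obtain ⟨z, hz, hz1⟩ := wp_surj L (X 1)
  have hode := L.derivWeierstrassP_sq z hz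
  have hΨ : ℘'[L] z ^ 2 ≠ 0 := by
    rw [hode, hz1]
    exact hX.h1
  have h2z : 2 * z ∉ L.lattice := by
    intro h
    exact hΨ (by rw [wp'_eq_zero_of_two_mul_mem L h]; simp)
  have hz2 : ℘[L] (2 * z) = X 2 := by
    have h1 := dup_formula L hz h2z
    have h2 := hX.hdup
    rw [hz1] at h1
    rw [← hz1, ← hode, hz1] at h2
    have h3 : (℘[L] (2 * z) + 2 * X 1) * ℘'[L] z ^ 2 = (X 2 + 2 * X 1) * ℘'[L] z ^ 2 := by
      rw [h1, h2]
    have h4 := mul_right_cancel₀ hΨ h3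
    linear_combination h4
  have key : ∀ k : ℕ, k + 2 ≤ N - 1 →
      (((k + 1 : ℕ) : ℂ) * z ∉ L.lattice ∧ ℘[L] (((k + 1 : ℕ) : ℂ) * z) = X (k + 1)) ∧
      (((k + 2 : ℕ) : ℂ) * z ∉ L.lattice ∧ ℘[L] (((k + 2 : ℕ) : ℂ) * z) = X (k + 2)) := by
    intro k
    induction k with
    | zero =>
      intro _
      refine ⟨⟨?_, ?_⟩, ⟨?_, ?_⟩⟩
      · simpa using hz
      · simpa using hz1
      · simpa using h2z
      · simpa using hz2
    | succ k ih =>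
      intro hk
      obtain ⟨⟨ha, ha'⟩, ⟨hb, hb'⟩⟩ := ih (by omega)
      refine ⟨⟨hb, hb'⟩, ?_⟩
      have hne := hX.hne (k + 2) (by omega) (by omega)
      have hrec := hX.hrec (k + 2) (by omega) (by omega)
      have e1 : ((k + 1 + 2 : ℕ) : ℂ) * z = ((k + 2 : ℕ) : ℂ) * z + z := by push_cast; ring
      have e2 : ((k + 1 : ℕ) : ℂ) * z = ((k + 2 : ℕ) : ℂ) * z - z := by push_cast; ring
      have hc : ((k + 1 + 2 : ℕ) : ℂ) * z ∉ L.lattice := by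
        intro h
        apply hne
        rw [← hb', ← hz1]
        have e3 : ((k + 2 : ℕ) : ℂ) * z = -z + ((k + 1 + 2 : ℕ) : ℂ) * z := by rw [e1]; ring
        rw [e3]
        have := L.weierstrassP_add_coe (-z) ⟨_, h⟩
        rw [this, L.weierstrassP_neg]
      refine ⟨hc, ?_⟩
      have h5 := add_add_sub L hb hz (by rwa [← e1]) (by rwa [← e2])
      rw [← e1, ← e2, ha', hb', hz1] at h5
      have e4 : k + 2 + 1 = k + 1 + 2 := by omega
      have e5 : k + 2 - 1 = k + 1 := by omega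
      rw [e4, e5] at hrec
      have hD : (X (k + 2) - X 1) ^ 2 ≠ 0 := pow_ne_zero 2 (sub_ne_zero.2 hne)
      have h6 : (℘[L] (((k + 1 + 2 : ℕ) : ℂ) * z) + X (k + 1)) * (X (k + 2) - X 1) ^ 2 =
          (X (k + 1 + 2) + X (k + 1)) * (X (k + 2) - X 1) ^ 2 := by rw [h5, hrec]
      have h7 := mul_right_cancel₀ hD h6
      linear_combination h7
  have all : ∀ k : ℕ, 1 ≤ k → k ≤ N - 1 →
      (k : ℂ) * z ∉ L.lattice ∧ ℘[L] ((k : ℂ) * z) = X k := by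
    intro k hk1 hk2
    rcases Nat.lt_or_ge k 2 with h | h
    · obtain rfl : k = 1 := by omega
      exact (key 0 (by omega)).1
    · obtain ⟨j, rfl⟩ : ∃ j, k = j + 2 := ⟨k - 2, by omega⟩
      exact (key j hk2).2
  refine ⟨z, ?_, all⟩
  obtain ⟨hl, hl'⟩ := all (N - 1) (by omega) le_rfl
  rw [hX.hend, ← hz1] at hl'
  have hN1 : ((N - 1 : ℕ) : ℂ) = (N : ℂ) - 1 := by
    rw [Nat.cast_sub (by omega)]; simp
  rcases wp_inj L hΔ hl hz hl' with h | h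
  · exfalso
    have := (all (N - 2) (by omega) (by omega)).1
    apply this
    have hN2 : ((N - 2 : ℕ) : ℂ) = (N : ℂ) - 2 := by
      rw [Nat.cast_sub (by omega)]; simp
    rw [hN2]
    rw [hN1] at h
    convert h using 1
    ring
  · rw [hN1] at h
    convert h using 1
    ring

end Fermat.Agent.MAZ.Ell
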