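import Fermat.Agent.MAZ.Ell.Tau
import Fermat.Agent.S24.JAnalytic

/-!
# MAZ / Ell / [E8]  uniformisation: every `(a, b)` with `a b (a³ - 27 b²) ≠ 0` is `(g₂, g₃)` of a lattice

`S24.jfun τ = E₄³/Δ`, `S24.jfun_surjective`.  Choose `τ` with `jfun τ = 1728 a³/(a³ - 27 b²)`.
With `A := g₂(τ)`, `B := g₃(τ)` (`g₂_tauPair`, `g₃_tauPair`, `disc_tauPair`):
`1728 A³/(A³ - 27 B²) = jfun τ`, hence `A³ b² = a³ B²`, and `A ≠ 0`.  Choose `c` with `c⁴ = A/a`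
(`IsAlgClosed.exists_pow_nat_eq`); then `(c⁻⁶ B)² = b²`; if `c⁻⁶ B = -b` replace `c` by `I c`.
`L := smulPair c _ (tauPair τ)`.
-/

set_option autoImplicit false

open UpperHalfPlane
open scoped PeriodPair

namespace Fermat.Agent.MAZ.Ell

theorem jfun_eq_of_tauPair (τ : ℍ) :
    Fermat.Agent.S24.jfun τ =
      1728 * (tauPair τ).g₂ ^ 3 / ((tauPair τ).g₂ ^ 3 - 27 * (tauPair τ).g₃ ^ 2) := by
  have hπ : (Real.pi : ℂ) ≠ 0 := by exact_mod_cast Real.pi_ne_zero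
  have hΔ := ModularForm.discriminant_ne_zero τ
  have h1 := Fermat.Agent.S24.jfun_mul_discriminant τ
  rw [disc_tauPair, g₂_tauPair, eq_div_iff (mul_ne_zero (pow_ne_zero _ (mul_ne_zero two_ne_zero hπ)) hΔ)]
  linear_combination (4096 * (Real.pi : ℂ) ^ 12) * h1

theorem exists_periodPair (a b : ℂ) (ha : a ≠ 0) (hb : b ≠ 0) (h : a ^ 3 - 27 * b ^ 2 ≠ 0) :
    ∃ L : PeriodPair, L.g₂ = a ∧ L.g₃ = b := by
  obtain ⟨τ, hτ⟩ := Fermat.Agent.S24.jfun_surjective (1728 * a ^ 3 / (a ^ 3 - 27 * b ^ 2))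
  have hπ : (Real.pi : ℂ) ≠ 0 := by exact_mod_cast Real.pi_ne_zero
  have hΔ := ModularForm.discriminant_ne_zero τ
  set A := (tauPair τ).g₂ with hA
  set B := (tauPair τ).g₃ with hB
  have hD : A ^ 3 - 27 * B ^ 2 ≠ 0 := by
    rw [hA, hB, disc_tauPair]
    exact mul_ne_zero (pow_ne_zero _ (mul_ne_zero two_ne_zero hπ)) hΔ
  have h1 : 1728 * A ^ 3 / (A ^ 3 - 27 * B ^ 2) = 1728 * a ^ 3 / (a ^ 3 - 27 * b ^ 2) := by
    rw [← hτ, jfun_eq_of_tauPair]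
  rw [div_eq_div_iff hD h] at h1
  have h2 : A ^ 3 * b ^ 2 = a ^ 3 * B ^ 2 := by linear_combination (-1 / 46656 : ℂ) * h1
  have hA0 : A ≠ 0 := by
    intro h0
    rw [h0] at h2 hD
    have : B ^ 2 = 0 := by
      have h3 : a ^ 3 * B ^ 2 = 0 := by rw [← h2]; ring
      exact (mul_eq_zero.mp h3).resolve_left (pow_ne_zero _ ha)
    apply hD
    rw [this]; ring
  obtain ⟨c, hc⟩ := IsAlgClosed.exists_pow_nat_eq (A / a) (n := 4) (by norm_num)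
  have hc0 : c ≠ 0 := by
    intro h0
    rw [h0] at hc
    have : A / a = 0 := by rw [← hc]; norm_num
    exact (div_ne_zero hA0 ha) this
  have hca : c ^ 4 * a = A := by rw [hc, div_mul_cancel₀ _ ha]
  have hsq : B ^ 2 = (c ^ 6 * b) ^ 2 := by
    have h3 : a ^ 3 * B ^ 2 = a ^ 3 * (c ^ 6 * b) ^ 2 := by
      rw [← h2, ← hca]; ring
    exact mul_left_cancel₀ (pow_ne_zero _ ha) h3
  rcases sq_eq_sq_iff_eq_or_eq_neg.mp hsq with h4 | h4
  · refine ⟨smulPair c hc0 (tauPair τ), ?_, ?_⟩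
    · rw [g₂_smulPair, ← hA, ← hca, inv_mul_cancel_left₀ (pow_ne_zero _ hc0)]
    · rw [g₃_smulPair, ← hB, h4, inv_mul_cancel_left₀ (pow_ne_zero _ hc0)]
  · have hI : Complex.I * c ≠ 0 := mul_ne_zero Complex.I_ne_zero hc0
    have hI4 : (Complex.I * c) ^ 4 = c ^ 4 := by
      rw [mul_pow, Complex.I_pow_four, one_mul]
    have hI6 : (Complex.I * c) ^ 6 = - c ^ 6 := by
      rw [mul_pow, show (6 : ℕ) = 4 + 2 by norm_num, pow_add Complex.I, Complex.I_pow_four,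
        Complex.I_sq]
      ring
    refine ⟨smulPair (Complex.I * c) hI (tauPair τ), ?_, ?_⟩
    · rw [g₂_smulPair, ← hA, ← hca, hI4, inv_mul_cancel_left₀ (pow_ne_zero _ hc0)]
    · rw [g₃_smulPair, ← hB, h4, hI6, ← neg_mul, inv_mul_cancel_left₀ (neg_ne_zero.mpr (pow_ne_zero _ hc0))]

end Fermat.Agent.MAZ.Ell
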