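import Fermat.Agent.MAZ.Ell.Deriv

/-!
# MAZ / Ell / [E2]  the addition theorem of `℘`, polynomial form

`(℘(z+w) + ℘ z + ℘ w) (℘ z - ℘ w)² = (℘' z - ℘' w)² / 4`.

PROOF (no Laurent expansions beyond continuity, no removable singularities).  Fix `s = z + w ∉ Λ` and
move along the line `z = s - w`.  With `A = ℘(s-w)`, `B = ℘ w`, `a = ℘'(s-w)`, `b = ℘' w`, `S = ℘ s`:
`P := (S + A + B)(A - B)² - (a - b)²/4`, `D := (A - B)²`.
* `P' D = P D'` (polynomial identity modulo the two ODEs `a² = 4A³ - g₂A - g₃`, `b² = ..`), so `P/D` is locally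
  constant where `D ≠ 0`.
* with `℘ w = w⁻² + E w`, `℘' w = -2 w⁻³ + E₁ w` (`E = ℘[L - 0]`, `E₁ = ℘'[L - 0]` continuous at `0`):
  `w⁴ D → 1` and `w⁴ P → 0` as `w → 0` (exact formulas `psi`, `phi`).
* hence `P/D = 0` on the ball `B(r/2, r/2)`, so `P = 0` there, and `P = 0` on the connected set
  `{w ∉ Λ, s - w ∉ Λ}` (complement of a countable set) by the identity theorem.
-/

set_option autoImplicit false

open scoped PeriodPair
open Filter Topology

namespace Fermat.Agent.MAZ.Ell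

variable (L : PeriodPair)

namespace AddAux

/-- the defect of the addition formula along the line `z + w = s`. -/
noncomputable def P (s w : ℂ) : ℂ :=
  (℘[L] s + ℘[L] (s - w) + ℘[L] w) * (℘[L] (s - w) - ℘[L] w) ^ 2 -
    (℘'[L] (s - w) - ℘'[L] w) ^ 2 / 4

noncomputable def D (s w : ℂ) : ℂ := (℘[L] (s - w) - ℘[L] w) ^ 2

/-- `w⁴ P`. -/
noncomputable def phi (s w : ℂ) : ℂ :=
  (℘[L] s - ℘[L] (s - w) + 3 * ℘[L - (0 : ℂ)] w) +
    w ^ 2 * ((℘[L] (s - w) - ℘[L - (0 : ℂ)] w) ^ 2 -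
      2 * (℘[L] s + ℘[L] (s - w) + ℘[L - (0 : ℂ)] w) * (℘[L] (s - w) - ℘[L - (0 : ℂ)] w)) +
    w ^ 4 * (℘[L] s + ℘[L] (s - w) + ℘[L - (0 : ℂ)] w) * (℘[L] (s - w) - ℘[L - (0 : ℂ)] w) ^ 2 -
    w * (℘'[L] (s - w) - ℘'[L - (0 : ℂ)] w) -
    w ^ 4 * (℘'[L] (s - w) - ℘'[L - (0 : ℂ)] w) ^ 2 / 4

/-- `w⁴ D`. -/
noncomputable def psi (s w : ℂ) : ℂ := (w ^ 2 * (℘[L] (s - w) - ℘[L - (0 : ℂ)] w) - 1) ^ 2

variable {L}

theorem wp_eq (w : ℂ) : ℘[L] w = 1 / w ^ 2 + ℘[L - (0 : ℂ)] w := by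
  have h := L.weierstrassPExcept_add (0 : L.lattice) w
  simp only [ZeroMemClass.coe_zero, sub_zero] at h
  rw [← h]
  simp
  ring

theorem wp'_eq (w : ℂ) : ℘'[L] w = -2 / w ^ 3 + ℘'[L - (0 : ℂ)] w := by
  have h := L.derivWeierstrassPExcept_sub (0 : L.lattice) w
  simp only [ZeroMemClass.coe_zero, sub_zero] at h
  rw [← h]
  ring

theorem phi_eq (s : ℂ) {w : ℂ} (hw : w ≠ 0) : phi L s w = w ^ 4 * P L s w := by
  unfold phi P
  rw [wp_eq w, wp'_eq w]
  field_simp
  ring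

theorem psi_eq (s : ℂ) {w : ℂ} (hw : w ≠ 0) : psi L s w = w ^ 4 * D L s w := by
  unfold psi D
  rw [wp_eq w]
  field_simp
  ring

theorem hasDerivAt_A {s w : ℂ} (h : s - w ∉ L.lattice) :
    HasDerivAt (fun w => ℘[L] (s - w)) (-℘'[L] (s - w)) w := by
  have h1 := (hasDerivAt_wp L h).comp w ((hasDerivAt_id w).const_sub s)
  simpa [Function.comp_def] using h1

theorem hasDerivAt_a {s w : ℂ} (h : s - w ∉ L.lattice) :
    HasDerivAt (fun w => ℘'[L] (s - w)) (-(6 * ℘[L] (s - w) ^ 2 - L.g₂ / 2)) w := by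
  have h1 := (hasDerivAt_wp' L h).comp w ((hasDerivAt_id w).const_sub s)
  simpa [Function.comp_def] using h1

theorem hasDerivAt_D {s w : ℂ} (hw : w ∉ L.lattice) (hsw : s - w ∉ L.lattice) :
    HasDerivAt (D L s)
      (2 * (℘[L] (s - w) - ℘[L] w) * (-℘'[L] (s - w) - ℘'[L] w)) w := by
  have h := ((hasDerivAt_A hsw).sub (hasDerivAt_wp L hw)).pow 2
  refine (h.congr_deriv ?_)
  simp

theorem hasDerivAt_P {s w : ℂ} (hw : w ∉ L.lattice) (hsw : s - w ∉ L.lattice) :
    HasDerivAt (P L s)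
      ((-℘'[L] (s - w) + ℘'[L] w) * (℘[L] (s - w) - ℘[L] w) ^ 2 +
        (℘[L] s + ℘[L] (s - w) + ℘[L] w) *
          (2 * (℘[L] (s - w) - ℘[L] w) * (-℘'[L] (s - w) - ℘'[L] w)) -
        (2 * (℘'[L] (s - w) - ℘'[L] w) *
          (-(6 * ℘[L] (s - w) ^ 2 - L.g₂ / 2) - (6 * ℘[L] w ^ 2 - L.g₂ / 2))) / 4) w := by
  have h1 := ((hasDerivAt_A hsw).const_add (℘[L] s)).add (hasDerivAt_wp L hw)
  have h2 := hasDerivAt_D hw hsw
  have h3 := (((hasDerivAt_a hsw).sub (hasDerivAt_wp' L hw)).pow 2).div_const 4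
  have h := (h1.mul h2).sub h3
  refine (h.congr_deriv ?_)
  simp [D]

/-- `P / D` has derivative `0`. -/
theorem hasDerivAt_quot {s w : ℂ} (hw : w ∉ L.lattice) (hsw : s - w ∉ L.lattice)
    (hD : D L s w ≠ 0) : HasDerivAt (fun w => P L s w / D L s w) 0 w := by
  have h := (hasDerivAt_P hw hsw).div (hasDerivAt_D hw hsw) hD
  refine (h.congr_deriv ?_)
  have e1 := L.derivWeierstrassP_sq _ hsw
  have e2 := L.derivWeierstrassP_sq _ hw
  rw [div_eq_zero_iff]
  left
  unfold P D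
  linear_combination (-(1 / 2) * (℘[L] (s - w) - ℘[L] w) * (℘'[L] (s - w) - ℘'[L] w)) * (e1 - e2)

theorem continuousAt_phi {s : ℂ} (hs : s ∉ L.lattice) : ContinuousAt (phi L s) 0 := by
  have h0 : s - 0 ∉ L.lattice := by simpa using hs
  have hA : ContinuousAt (fun w => ℘[L] (s - w)) 0 := (hasDerivAt_A h0).continuousAt
  have ha : ContinuousAt (fun w => ℘'[L] (s - w)) 0 := (hasDerivAt_a h0).continuousAt
  have hE : ContinuousAt ℘[L - (0 : ℂ)] 0 := (L.analyticAt_weierstrassPExcept 0).continuousAt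
  have hE1 : ContinuousAt ℘'[L - (0 : ℂ)] 0 :=
    (L.analyticAt_derivWeierstrassPExcept 0).continuousAt
  unfold phi
  fun_prop

theorem continuousAt_psi {s : ℂ} (hs : s ∉ L.lattice) : ContinuousAt (psi L s) 0 := by
  have h0 : s - 0 ∉ L.lattice := by simpa using hs
  have hA : ContinuousAt (fun w => ℘[L] (s - w)) 0 := (hasDerivAt_A h0).continuousAt
  have hE : ContinuousAt ℘[L - (0 : ℂ)] 0 := (L.analyticAt_weierstrassPExcept 0).continuousAt
  unfold psi
  fun_prop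

theorem phi_zero (s : ℂ) : phi L s 0 = 0 := by
  simp [phi]

theorem psi_zero (s : ℂ) : psi L s 0 = 1 := by
  simp [psi]

variable (L) in
/-- the domain of `P`. -/
def U (s : ℂ) : Set ℂ := {w | w ∉ L.lattice ∧ s - w ∉ L.lattice}

theorem isOpen_U (s : ℂ) : IsOpen (U L s) := by
  have h1 : IsOpen {w : ℂ | w ∉ L.lattice} := L.isClosed_lattice.isOpen_compl
  have h2 : IsOpen {w : ℂ | s - w ∉ L.lattice} :=
    L.isClosed_lattice.isOpen_compl.preimage (by fun_prop : Continuous fun w : ℂ => s - w)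
  exact h1.inter h2

theorem isPreconnected_U (s : ℂ) : IsPreconnected (U L s) := by
  have hc : Countable L.lattice := L.latticeEquivProd.toEquiv.injective.countable
  have hc' : (L.lattice : Set ℂ).Countable := Set.countable_coe_iff.1 hc
  have hU : U L s = ((L.lattice : Set ℂ) ∪ (fun l => s - l) '' (L.lattice : Set ℂ))ᶜ := by
    ext w
    simp only [U, Set.mem_ofPred_eq, Set.mem_compl_iff, Set.mem_union, Set.mem_image, not_or,
      SetLike.mem_coe]
    refine and_congr Iff.rfl ⟨fun h => ?_, fun h hmem => h ⟨s - w, hmem, by ring⟩⟩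
    rintro ⟨l, hl, rfl⟩
    apply h
    simpa using hl
  rw [hU]
  exact ((hc'.union (hc'.image _)).isConnected_compl_of_one_lt_rank
    (by rw [Complex.rank_real_complex]; exact Nat.one_lt_ofNat)).isPreconnected

theorem analyticOnNhd_P (s : ℂ) : AnalyticOnNhd ℂ (P L s) (U L s) := by
  refine DifferentiableOn.analyticOnNhd (fun w hw => ?_) (isOpen_U s)
  exact (hasDerivAt_P hw.1 hw.2).differentiableAt.differentiableWithinAt

theorem P_eqOn_zero {s : ℂ} (hs : s ∉ L.lattice) : Set.EqOn (P L s) 0 (U L s) := by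
  have h1 : ∀ᶠ w in 𝓝 (0 : ℂ), w ≠ 0 → w ∉ L.lattice := by
    filter_upwards [L.compl_lattice_sdiff_singleton_mem_nhds 0] with w hw hw0 hmem
    exact hw ⟨hmem, hw0⟩
  have h2 : ∀ᶠ w in 𝓝 (0 : ℂ), s - w ∉ L.lattice := by
    have hc : ContinuousAt (fun w : ℂ => s - w) 0 := by fun_prop
    exact hc.eventually (L.isClosed_lattice.isOpen_compl.mem_nhds (by simpa using hs))
  have h3 : ∀ᶠ w in 𝓝 (0 : ℂ), psi L s w ≠ 0 :=
    (continuousAt_psi hs).eventually_ne (by rw [psi_zero]; exact one_ne_zero)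
  obtain ⟨r, hr, hball⟩ := Metric.eventually_nhds_iff.1 (h1.and (h2.and h3))
  set c : ℂ := ((r / 2 : ℝ) : ℂ) with hc
  have hdc : dist c 0 = r / 2 := by
    rw [dist_zero_right, hc, Complex.norm_real, Real.norm_eq_abs, abs_of_pos (by positivity)]
  have hC : ∀ w ∈ Metric.ball c (r / 2), w ∉ L.lattice ∧ s - w ∉ L.lattice ∧ w ≠ 0 ∧
      D L s w ≠ 0 := by
    intro w hw
    rw [Metric.mem_ball] at hw
    have hw0 : w ≠ 0 := by
      rintro rfl
      rw [dist_comm, hdc] at hw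
      exact lt_irrefl _ hw
    have hwr : dist w 0 < r := by
      have := dist_triangle w c 0
      rw [hdc] at this
      linarith
    obtain ⟨a1, a2, a3⟩ := hball hwr
    refine ⟨a1 hw0, a2, hw0, fun hD => a3 ?_⟩
    rw [psi_eq s hw0, hD, mul_zero]
  -- `P / D` is constant on the ball
  have hconst : ∀ w ∈ Metric.ball c (r / 2), P L s w / D L s w = P L s c / D L s c := by
    intro w hw
    refine IsOpen.is_const_of_deriv_eq_zero (𝕜 := ℂ) (f := fun w => P L s w / D L s w)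
      Metric.isOpen_ball (convex_ball c (r / 2)).isPreconnected
      (fun x hx => ?_) (fun x hx => ?_) hw (Metric.mem_ball_self (by positivity))
    · obtain ⟨b1, b2, -, b4⟩ := hC x hx
      exact (hasDerivAt_quot b1 b2 b4).differentiableAt.differentiableWithinAt
    · obtain ⟨b1, b2, -, b4⟩ := hC x hx
      exact (hasDerivAt_quot b1 b2 b4).deriv
  -- the limit at `0`
  have hlim : Tendsto (fun w => phi L s w / psi L s w) (𝓝 0) (𝓝 0) := by
    have h := Tendsto.div (continuousAt_phi hs).tendsto (continuousAt_psi hs).tendsto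
      (by rw [psi_zero]; exact one_ne_zero)
    rw [phi_zero, psi_zero, div_one] at h
    exact h
  have hreal : Tendsto (fun t : ℝ => (t : ℂ)) (𝓝[>] 0) (𝓝 0) := by
    have : Tendsto (fun t : ℝ => (t : ℂ)) (𝓝 0) (𝓝 ((0 : ℝ) : ℂ)) :=
      Complex.continuous_ofReal.tendsto 0
    rw [Complex.ofReal_zero] at this
    exact this.mono_left nhdsWithin_le_nhds
  have hlim2 := hlim.comp hreal
  have hev : ∀ᶠ t : ℝ in 𝓝[>] 0,
      ((fun w => phi L s w / psi L s w) ∘ fun t : ℝ => (t : ℂ)) t = P L s c / D L s c := by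
    filter_upwards [Ioo_mem_nhdsGT hr] with t ht
    have htC : (t : ℂ) ∈ Metric.ball c (r / 2) := by
      rw [Metric.mem_ball, hc, Complex.dist_eq, ← Complex.ofReal_sub, Complex.norm_real,
        Real.norm_eq_abs, abs_lt]
      constructor <;> linarith [ht.1, ht.2]
    obtain ⟨-, -, b3, -⟩ := hC _ htC
    rw [Function.comp_apply, phi_eq s b3, psi_eq s b3, ← hconst _ htC,
      mul_div_mul_left _ _ (pow_ne_zero 4 b3)]
  have hκ : P L s c / D L s c = 0 :=
    tendsto_nhds_unique (tendsto_const_nhds.congr' (hev.mono fun _ h => h.symm)) hlim2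
  have hPC : ∀ w ∈ Metric.ball c (r / 2), P L s w = 0 := by
    intro w hw
    have h := hconst w hw
    rw [hκ, div_eq_zero_iff] at h
    exact h.resolve_right (hC w hw).2.2.2
  have hcU : c ∈ U L s := by
    obtain ⟨b1, b2, -, -⟩ := hC c (Metric.mem_ball_self (by positivity))
    exact ⟨b1, b2⟩
  refine (analyticOnNhd_P s).eqOn_zero_of_preconnected_of_eventuallyEq_zero (isPreconnected_U s)
    hcU ?_
  filter_upwards [Metric.ball_mem_nhds c (by positivity : 0 < r / 2)] with w hw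
  exact hPC w hw

end AddAux

/-- **Addition theorem** (polynomial form). -/
theorem add_formula {z w : ℂ} (hz : z ∉ L.lattice) (hw : w ∉ L.lattice)
    (hzw : z + w ∉ L.lattice) :
    (℘[L] (z + w) + ℘[L] z + ℘[L] w) * (℘[L] z - ℘[L] w) ^ 2 = (℘'[L] z - ℘'[L] w) ^ 2 / 4 := by
  have h := AddAux.P_eqOn_zero hzw (x := w) ⟨hw, by simpa using hz⟩
  simp only [AddAux.P, add_sub_cancel_right, Pi.zero_apply] at h
  exact sub_eq_zero.1 h

end Fermat.Agent.MAZ.Ell
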