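import Mathlib

/-!
# MAZ / Ell / [E1]  derivatives of `℘`, `℘'` and Liouville for elliptic functions

Mathlib only.  `L : PeriodPair`, `℘[L]`, `℘'[L]`, ODE `PeriodPair.derivWeierstrassP_sq`.

RECIPES.
* `eq_const_of_periodic`: copy the last lines of Mathlib's `PeriodPair.relation_eq_zero`
  (`Differentiable.apply_eq_apply_of_bounded` + `IsZLattice.isCompact_range_of_periodic`).
* `hasDerivAt_wp`: `L.deriv_weierstrassP` + `L.differentiableOn_weierstrassP` (open set `L.latticeᶜ`).
* `hasDerivAt_wp'`: differentiate the ODE: `2 ℘' ℘'' = (12 ℘² - g₂) ℘'` on `L.latticeᶜ`; so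
  `℘'' = 6 ℘² - g₂/2` where `℘' ≠ 0`; both sides are analytic on the (preconnected, or: locally,
  by isolated zeros of the analytic non-zero function `℘'`) set `L.latticeᶜ`; conclude by continuity
  (zeros of `℘'` are isolated because `℘'` is analytic and not locally zero: `℘` is not locally
  constant since it has poles / identity theorem).  Alternative: termwise differentiation of
  `℘' = -2 ∑ (z-l)⁻³` and comparison of Laurent coefficients is NOT needed.
-/

set_option autoImplicit false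

open scoped PeriodPair
open Filter Topology

namespace Fermat.Agent.MAZ.Ell

variable (L : PeriodPair)

/-- Liouville: an entire `L`-periodic function is constant. -/
theorem eq_const_of_periodic (f : ℂ → ℂ) (hf : Differentiable ℂ f)
    (hper : ∀ z : ℂ, ∀ l ∈ L.lattice, f (z + l) = f z) (z : ℂ) : f z = f 0 :=
  hf.apply_eq_apply_of_bounded (IsZLattice.isCompact_range_of_periodic L.lattice _
    hf.continuous fun z w hw ↦ hper z w hw).isBounded z 0

theorem hasDerivAt_wp {z : ℂ} (hz : z ∉ L.lattice) : HasDerivAt ℘[L] (℘'[L] z) z := by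
  have h := (L.differentiableOn_weierstrassP.differentiableAt
    (L.isClosed_lattice.isOpen_compl.mem_nhds hz)).hasDerivAt
  rwa [L.deriv_weierstrassP] at h

theorem isPreconnected_compl_lattice : IsPreconnected (L.lattice : Set ℂ)ᶜ :=
  (Set.Countable.isConnected_compl_of_one_lt_rank (by simp)
    (countable_of_Lindelof_of_discrete (X := L.lattice))).2

/-- `℘'` does not vanish identically near any point off the lattice. -/
theorem not_eventually_wp'_eq_zero {z : ℂ} (hz : z ∉ L.lattice) :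
    ¬ ∀ᶠ w in 𝓝 z, ℘'[L] w = 0 := by
  intro h
  have hU : IsOpen (L.lattice : Set ℂ)ᶜ := L.isClosed_lattice.isOpen_compl
  have h0 : Set.EqOn ℘'[L] 0 (L.lattice : Set ℂ)ᶜ :=
    L.analyticOnNhd_derivWeierstrassP.eqOn_zero_of_preconnected_of_eventuallyEq_zero
      (isPreconnected_compl_lattice L) hz h
  obtain ⟨a, ha⟩ := hU.exists_is_const_of_deriv_eq_zero (isPreconnected_compl_lattice L)
    L.differentiableOn_weierstrassP (by rw [L.deriv_weierstrassP]; exact h0)
  have h1 : ℘[L] =ᶠ[𝓝[≠] (0:ℂ)] fun _ => a := by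
    have := L.compl_lattice_sdiff_singleton_mem_nhds 0
    filter_upwards [nhdsWithin_le_nhds this, self_mem_nhdsWithin] with w hw hw0
    apply ha
    intro hwl
    exact hw ⟨hwl, hw0⟩
  have h2 := meromorphicOrderAt_congr h1
  rw [L.order_weierstrassP 0 (zero_mem _)] at h2
  by_cases ha0 : a = 0
  · subst ha0
    have : meromorphicOrderAt (fun _ : ℂ => (0:ℂ)) 0 = ⊤ := by
      rw [meromorphicOrderAt_eq_top_iff]; simp
    rw [this] at h2
    exact absurd h2 (by decide)
  · have : meromorphicOrderAt (fun _ : ℂ => a) 0 = 0 := by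
      have := (analyticAt_const (𝕜 := ℂ) (v := a) (x := (0:ℂ))).meromorphicOrderAt_eq
      rw [this, (analyticAt_const (𝕜 := ℂ) (v := a) (x := (0:ℂ))).analyticOrderAt_eq_zero.2 ha0]
      rfl
    rw [this] at h2
    exact absurd h2 (by decide)

/-- `℘'' = 6 ℘² - g₂/2`. -/
theorem hasDerivAt_wp' {z : ℂ} (hz : z ∉ L.lattice) :
    HasDerivAt ℘'[L] (6 * ℘[L] z ^ 2 - L.g₂ / 2) z := by
  have hU : IsOpen (L.lattice : Set ℂ)ᶜ := L.isClosed_lattice.isOpen_compl
  have hd : ∀ w, w ∉ L.lattice → HasDerivAt ℘'[L] (deriv ℘'[L] w) w := fun w hw =>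
    (L.analyticOnNhd_derivWeierstrassP w hw).differentiableAt.hasDerivAt
  -- the product relation
  have hprod : ∀ w, w ∉ L.lattice →
      ℘'[L] w * (deriv ℘'[L] w - (6 * ℘[L] w ^ 2 - L.g₂ / 2)) = 0 := by
    intro w hw
    have e : (fun x => ℘'[L] x ^ 2) =ᶠ[𝓝 w]
        fun x => 4 * ℘[L] x ^ 3 - L.g₂ * ℘[L] x - L.g₃ := by
      filter_upwards [hU.mem_nhds hw] with x hx
      exact L.derivWeierstrassP_sq x hx
    have d1 : HasDerivAt (fun x => ℘'[L] x ^ 2) (2 * ℘'[L] w * deriv ℘'[L] w) w := by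
      have := (hd w hw).fun_pow 2
      simpa using this
    have d2 : HasDerivAt (fun x => 4 * ℘[L] x ^ 3 - L.g₂ * ℘[L] x - L.g₃)
        (4 * (3 * ℘[L] w ^ 2 * ℘'[L] w) - L.g₂ * ℘'[L] w) w := by
      simpa using ((((hasDerivAt_wp L hw).fun_pow 3).const_mul 4).sub
        ((hasDerivAt_wp L hw).const_mul L.g₂)).sub_const L.g₃
    have := (d1.congr_of_eventuallyEq e.symm).unique d2
    linear_combination this / 2
  have hA : AnalyticAt ℂ (fun w => deriv ℘'[L] w - (6 * ℘[L] w ^ 2 - L.g₂ / 2)) z := by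
    have h1 := (L.analyticOnNhd_derivWeierstrassP z hz).deriv
    have h2 := L.analyticOnNhd_weierstrassP z hz
    fun_prop
  have hne : ∀ᶠ w in 𝓝[≠] z, ℘'[L] w ≠ 0 :=
    ((L.analyticOnNhd_derivWeierstrassP z hz).eventually_eq_zero_or_eventually_ne_zero).resolve_left
      (not_eventually_wp'_eq_zero L hz)
  have hz0 : ∀ᶠ w in 𝓝[≠] z, deriv ℘'[L] w - (6 * ℘[L] w ^ 2 - L.g₂ / 2) = 0 := by
    filter_upwards [hne, nhdsWithin_le_nhds (hU.mem_nhds hz)] with w hw hwU
    exact (mul_eq_zero.1 (hprod w hwU)).resolve_left hw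
  have hev := hA.frequently_zero_iff_eventually_zero.1 hz0.frequently
  have := hev.self_of_nhds
  have h3 := hd z hz
  rwa [sub_eq_zero.1 this] at h3

end Fermat.Agent.MAZ.Ell
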