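import Fermat.Agent.MAZ.Ell.Add

/-!
# MAZ / Ell / [E3]  duplication formula and the `x`-only addition formulas

* `dup_formula`: divide `add_formula` (for `w → z`, `w ≠ z`) by `(z-w)²` and pass to the limit, using
  `hasDerivAt_wp`, `hasDerivAt_wp'` (slopes) and continuity of `℘` at `2 z ∉ Λ`.
* `add_add_sub`, `add_mul_sub`: PURE ALGEBRA from `add_formula` for `w` and `-w`
  (`℘(-w) = ℘ w`, `℘'(-w) = -℘' w`) and the ODE for `z` and `w`
  (`field_simp` + `linear_combination`).  They are the analogues of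
  `S05.xc_add_add_xc_sub`, `S05.xc_add_mul_xc_sub` for `y² = 4x³ - g₂ x - g₃`.
-/

set_option autoImplicit false

open scoped PeriodPair
open Filter Topology

namespace Fermat.Agent.MAZ.Ell

variable (L : PeriodPair)

theorem dup_formula {z : ℂ} (hz : z ∉ L.lattice) (h2z : 2 * z ∉ L.lattice) :
    (℘[L] (2 * z) + 2 * ℘[L] z) * ℘'[L] z ^ 2 = (6 * ℘[L] z ^ 2 - L.g₂ / 2) ^ 2 / 4 := by
  have hopen : IsOpen ((L.lattice : Set ℂ)ᶜ) := L.isClosed_lattice.isOpen_compl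
  have h1 := hasDerivAt_iff_tendsto_slope.mp (hasDerivAt_wp L hz)
  have h2 := hasDerivAt_iff_tendsto_slope.mp (hasDerivAt_wp' L hz)
  have hc1 : Tendsto ℘[L] (𝓝[≠] z) (𝓝 (℘[L] z)) :=
    ((hasDerivAt_wp L hz).continuousAt.tendsto).mono_left nhdsWithin_le_nhds
  have hc2 : Tendsto (fun w => ℘[L] (z + w)) (𝓝[≠] z) (𝓝 (℘[L] (2 * z))) := by
    have h3 : ContinuousAt (fun w => ℘[L] (z + w)) z := by
      have h4 : ContinuousAt ℘[L] (z + z) := by
        rw [← two_mul]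
        exact (hasDerivAt_wp L h2z).continuousAt
      exact ContinuousAt.comp (f := fun w => z + w) h4 (by fun_prop)
    have h5 := h3.tendsto
    rw [← two_mul] at h5
    exact h5.mono_left nhdsWithin_le_nhds
  have hF : Tendsto (fun w => (℘[L] (z + w) + ℘[L] z + ℘[L] w) * (slope ℘[L] z w) ^ 2) (𝓝[≠] z)
      (𝓝 ((℘[L] (2 * z) + ℘[L] z + ℘[L] z) * ℘'[L] z ^ 2)) :=
    ((hc2.add tendsto_const_nhds).add hc1).mul (h1.pow 2)
  have hG : Tendsto (fun w => (slope ℘'[L] z w) ^ 2 / 4) (𝓝[≠] z)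
      (𝓝 ((6 * ℘[L] z ^ 2 - L.g₂ / 2) ^ 2 / 4)) := (h2.pow 2).div_const 4
  have hev : (fun w => (℘[L] (z + w) + ℘[L] z + ℘[L] w) * (slope ℘[L] z w) ^ 2) =ᶠ[𝓝[≠] z]
      (fun w => (slope ℘'[L] z w) ^ 2 / 4) := by
    have hw1 : ∀ᶠ w in 𝓝 z, w ∈ (L.lattice : Set ℂ)ᶜ := hopen.mem_nhds hz
    have hw2 : ∀ᶠ w in 𝓝 z, z + w ∈ (L.lattice : Set ℂ)ᶜ := by
      have hcont : ContinuousAt (fun w : ℂ => z + w) z := by fun_prop
      apply hcont.eventually_mem
      apply hopen.mem_nhds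
      rw [← two_mul]
      exact h2z
    filter_upwards [nhdsWithin_le_nhds hw1, nhdsWithin_le_nhds hw2, self_mem_nhdsWithin]
      with w hw hzw hne
    have hne' : w - z ≠ 0 := sub_ne_zero.mpr hne
    have h := add_formula L hz hw hzw
    simp only [slope_def_field]
    have hne2 : (w - z) ^ 2 ≠ 0 := pow_ne_zero 2 hne'
    field_simp
    linear_combination 4 * h
  have := tendsto_nhds_unique_of_eventuallyEq hF hG hev
  rw [← this]
  ring

theorem add_add_sub {z w : ℂ} (hz : z ∉ L.lattice) (hw : w ∉ L.lattice)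
    (hp : z + w ∉ L.lattice) (hm : z - w ∉ L.lattice) :
    (℘[L] (z + w) + ℘[L] (z - w)) * (℘[L] z - ℘[L] w) ^ 2 =
      (2 * ℘[L] z * ℘[L] w - L.g₂ / 2) * (℘[L] z + ℘[L] w) - L.g₃ := by
  have h1 := add_formula L hz hw hp
  have h2 := add_formula L hz (w := -w) (by rwa [neg_mem_iff]) (by rwa [← sub_eq_add_neg])
  rw [← sub_eq_add_neg, L.weierstrassP_neg, L.derivWeierstrassP_neg] at h2
  have hX := L.derivWeierstrassP_sq z hz
  have hW := L.derivWeierstrassP_sq w hw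
  linear_combination h1 + h2 + (1 / 2) * hX + (1 / 2) * hW

theorem add_mul_sub {z w : ℂ} (hz : z ∉ L.lattice) (hw : w ∉ L.lattice)
    (hp : z + w ∉ L.lattice) (hm : z - w ∉ L.lattice) (hne : ℘[L] z ≠ ℘[L] w) :
    ℘[L] (z + w) * ℘[L] (z - w) * (℘[L] z - ℘[L] w) ^ 2 =
      (℘[L] z * ℘[L] w + L.g₂ / 4) ^ 2 + L.g₃ * (℘[L] z + ℘[L] w) := by
  have h1 := add_formula L hz hw hp
  have h2 := add_formula L hz (w := -w) (by rwa [neg_mem_iff]) (by rwa [← sub_eq_add_neg])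
  rw [← sub_eq_add_neg, L.weierstrassP_neg, L.derivWeierstrassP_neg] at h2
  have hX := L.derivWeierstrassP_sq z hz
  have hW := L.derivWeierstrassP_sq w hw
  generalize ℘[L] (z + w) = A at *
  generalize ℘[L] (z - w) = B at *
  generalize ℘[L] z = X at *
  generalize ℘[L] w = W at *
  generalize ℘'[L] z = Y at *
  generalize ℘'[L] w = V at *
  generalize L.g₂ = g₂ at *
  generalize L.g₃ = g₃ at *
  have hD : (X - W) ^ 2 ≠ 0 := pow_ne_zero 2 (sub_ne_zero.mpr hne)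
  have e1 : (Y - V) ^ 2 / 4 * ((Y - -V) ^ 2 / 4) =
      ((4 * X ^ 3 - g₂ * X - g₃) - (4 * W ^ 3 - g₂ * W - g₃)) ^ 2 / 16 := by
    rw [← hX, ← hW]; ring
  have e2 : (Y - V) ^ 2 / 4 + (Y - -V) ^ 2 / 4 =
      ((4 * X ^ 3 - g₂ * X - g₃) + (4 * W ^ 3 - g₂ * W - g₃)) / 2 := by
    rw [← hX, ← hW]; ring
  apply mul_right_cancel₀ hD
  linear_combination (B * (X - W) ^ 2) * h1 + ((Y - V) ^ 2 / 4 - (X + W) * (X - W) ^ 2) * h2 + e1 -
    ((X + W) * (X - W) ^ 2) * e2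

end Fermat.Agent.MAZ.Ell
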