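import Fermat.Agent.MAZ.Ell.Dup

/-!
# MAZ / Ell / [E4]  zeros of `℘'`, injectivity and surjectivity of `℘` (NO zero counting)

Hypothesis `hΔ : g₂³ - 27 g₃² ≠ 0` (discharged in `Ell/Basis.lean`, `disc_ne_zero`).

RECIPES.
* `wp'_eq_zero_of_two_mul_mem`: `℘'(z) = ℘'(z - 2z) = ℘'(-z) = -℘'(z)`.
* `two_mul_mem_of_wp'_eq_zero`: if `℘' z = 0` and `2z ∉ Λ`, `dup_formula` gives `6 e² - g₂/2 = 0`
  (`e = ℘ z`), the ODE gives `4e³ - g₂ e - g₃ = 0`; eliminate: `g₂ = 12 e²`, `g₃ = -8 e³`, so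
  `g₂³ - 27 g₃² = 0`.
* `half_formula`: `h ∉ Λ`, `2h ∈ Λ`, `e = ℘ h`, `z, z + h ∉ Λ`:
  `(℘(z+h) - e)(℘ z - e) = 3e² - g₂/4`.  From `add_formula` with `w = h` (`℘' h = 0`) and the ODE:
  `(℘(z+h) + ℘ z + e)(℘ z - e)² = ℘'(z)²/4 = (℘ z - e)(℘ z² + e ℘ z + e² - g₂/4)`; cancel `℘ z - e`
  where it is `≠ 0`; these `z` are dense (isolated zeros of the analytic non-constant `℘ - e`:
  `AnalyticAt.eventually_eq_zero_or_eventually_ne_zero`, `℘` is not locally constant because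
  `℘'` would vanish on an open set, hence (identity theorem on the preconnected set `Λᶜ`, or:
  `℘'' = 6℘² - g₂/2`, `℘''' = 12 ℘ ℘'`...) simplest: if `℘ = e` near `z₀` then `℘' = 0` and
  `℘'' = 6e² - g₂/2 = 0` near `z₀`, contradiction with `hΔ` as above); both sides are continuous.
* `wp_inj`: assume `℘ z = ℘ w`, `z ± w ∉ Λ`.  `add_formula` for `(z,w)` and `(z,-w)` gives
  `℘' z = ℘' w` and `℘' z = -℘' w`, so `℘' z = ℘' w = 0`, so `2z, 2w ∈ Λ`.  Now `half_formula`
  with `h := w` at the point `z`: `z + w ∉ Λ`, `(℘(z+w) - e)(℘ z - e) = 0 = 3e² - g₂/4`, i.e.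
  `e` is a double root: contradiction with `hΔ`.
* `wp_surj`: if `℘ - x` has no zero on `Λᶜ`, then `f := 1/(℘ - x)` on `Λᶜ`, `0` on `Λ`, is entire
  (differentiable off `Λ`; continuous at the points of `Λ` since `‖℘‖ → ∞` there:
  `℘ z = ℘[L - l₀] z + 1/(z-l₀)² - 1/l₀²`; removable singularity
  `Complex.analyticAt_of_differentiable_on_punctured_nhds_of_continuousAt`) and periodic, so constant
  `= f 0 = 0` by `eq_const_of_periodic`: absurd.
-/

set_option autoImplicit false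

open scoped PeriodPair
open Filter Topology

namespace Fermat.Agent.MAZ.Ell

variable (L : PeriodPair)

theorem wp'_eq_zero_of_two_mul_mem {z : ℂ} (h2 : 2 * z ∈ L.lattice) : ℘'[L] z = 0 := by
  have h1 : ℘'[L] (-z + 2 * z) = ℘'[L] (-z) := L.derivWeierstrassP_add_coe (-z) ⟨2 * z, h2⟩
  rw [L.derivWeierstrassP_neg, show -z + 2 * z = z by ring] at h1
  have h3 : (2 : ℂ) * ℘'[L] z = 0 := by linear_combination h1
  simpa using h3

/-- a double root of the cubic contradicts `Δ ≠ 0`. -/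
theorem disc_aux {g₂ g₃ e : ℂ} (hΔ : g₂ ^ 3 - 27 * g₃ ^ 2 ≠ 0) (h1 : 4 * e ^ 3 - g₂ * e - g₃ = 0)
    (h2 : 12 * e ^ 2 - g₂ = 0) : False := by
  apply hΔ
  have hg2 : g₂ = 12 * e ^ 2 := by linear_combination -h2
  have hg3 : g₃ = -8 * e ^ 3 := by rw [hg2] at h1; linear_combination -h1
  rw [hg2, hg3]
  ring

theorem two_mul_mem_of_wp'_eq_zero (hΔ : L.g₂ ^ 3 - 27 * L.g₃ ^ 2 ≠ 0) {z : ℂ}
    (hz : z ∉ L.lattice) (h : ℘'[L] z = 0) : 2 * z ∈ L.lattice := by
  by_contra h2z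
  have h1 := dup_formula L hz h2z
  have h2 := L.derivWeierstrassP_sq z hz
  rw [h] at h1 h2
  have h3 : (6 * ℘[L] z ^ 2 - L.g₂ / 2) ^ 2 = 0 := by linear_combination -4 * h1
  have h4 : 6 * ℘[L] z ^ 2 - L.g₂ / 2 = 0 := by simpa using h3
  exact disc_aux hΔ (e := ℘[L] z) (by linear_combination -h2) (by linear_combination 2 * h4)

theorem continuousAt_wp {z : ℂ} (hz : z ∉ L.lattice) : ContinuousAt ℘[L] z :=
  (hasDerivAt_wp L hz).continuousAt

theorem eventually_notMem {z : ℂ} (hz : z ∉ L.lattice) : ∀ᶠ y in 𝓝 z, y ∉ L.lattice :=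
  L.isClosed_lattice.isOpen_compl.mem_nhds hz

/-- `℘` is not locally constant. -/
theorem eventually_wp_ne (hΔ : L.g₂ ^ 3 - 27 * L.g₃ ^ 2 ≠ 0) {z : ℂ} (hz : z ∉ L.lattice) (e : ℂ) :
    ∀ᶠ y in 𝓝[≠] z, ℘[L] y ≠ e := by
  have han : AnalyticAt ℂ (fun y => ℘[L] y - e) z :=
    (L.analyticOnNhd_weierstrassP z hz).sub analyticAt_const
  rcases han.eventually_eq_zero_or_eventually_ne_zero with h | h
  · exfalso
    -- `℘ = e` near `z`
    have h1 : ℘[L] =ᶠ[𝓝 z] fun _ => e := h.mono fun y hy => sub_eq_zero.mp hy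
    have h2 : ∀ᶠ y in 𝓝 z, ℘'[L] y = 0 := by
      filter_upwards [h1.eventually_nhds, eventually_notMem L hz] with y hy hyL
      have h3 : HasDerivAt ℘[L] 0 y := (hasDerivAt_const y e).congr_of_eventuallyEq hy
      exact (hasDerivAt_wp L hyL).unique h3
    have h3 : HasDerivAt ℘'[L] 0 z :=
      (hasDerivAt_const z (0 : ℂ)).congr_of_eventuallyEq (h2.mono fun y hy => hy)
    have h4 := (hasDerivAt_wp' L hz).unique h3
    have h5 := L.derivWeierstrassP_sq z hz
    rw [h2.self_of_nhds] at h5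
    exact disc_aux hΔ (e := ℘[L] z) (by linear_combination -h5) (by linear_combination 2 * h4)
  · exact h.mono fun y hy => sub_ne_zero.mp hy

theorem half_formula (hΔ : L.g₂ ^ 3 - 27 * L.g₃ ^ 2 ≠ 0) {h z : ℂ} (hh : h ∉ L.lattice)
    (h2 : 2 * h ∈ L.lattice) (hz : z ∉ L.lattice) (hzh : z + h ∉ L.lattice) :
    (℘[L] (z + h) - ℘[L] h) * (℘[L] z - ℘[L] h) = 3 * ℘[L] h ^ 2 - L.g₂ / 4 := by
  have hh' := wp'_eq_zero_of_two_mul_mem L h2
  have hode := L.derivWeierstrassP_sq h hh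
  rw [hh'] at hode
  -- the generic case
  have key : ∀ y : ℂ, y ∉ L.lattice → y + h ∉ L.lattice → ℘[L] y ≠ ℘[L] h →
      (℘[L] (y + h) - ℘[L] h) * (℘[L] y - ℘[L] h) = 3 * ℘[L] h ^ 2 - L.g₂ / 4 := by
    intro y hy hyh hne
    have h1 := add_formula L hy hh hyh
    have h3 := L.derivWeierstrassP_sq y hy
    rw [hh', sub_zero, h3] at h1
    have h4 : ℘[L] y - ℘[L] h ≠ 0 := sub_ne_zero.mpr hne
    apply mul_right_cancel₀ h4
    linear_combination h1 - (1 / 4 : ℂ) * hode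
  have hc1 : ContinuousAt (fun y => (℘[L] (y + h) - ℘[L] h) * (℘[L] y - ℘[L] h)) z := by
    have h5 : ContinuousAt (fun y => ℘[L] (y + h)) z :=
      ContinuousAt.comp (f := fun y => y + h) (g := ℘[L]) (continuousAt_wp L hzh)
        (continuous_add_const h).continuousAt
    exact (h5.sub continuousAt_const).mul ((continuousAt_wp L hz).sub continuousAt_const)
  have hev : ∀ᶠ y in 𝓝[≠] z, (℘[L] (y + h) - ℘[L] h) * (℘[L] y - ℘[L] h)
      = 3 * ℘[L] h ^ 2 - L.g₂ / 4 := by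
    have h6 : ∀ᶠ y in 𝓝 z, y + h ∉ L.lattice :=
      (continuous_add_const h).continuousAt.eventually (eventually_notMem L hzh)
    filter_upwards [eventually_wp_ne L hΔ hz (℘[L] h),
      (eventually_notMem L hz).filter_mono nhdsWithin_le_nhds,
      h6.filter_mono nhdsWithin_le_nhds] with y hy1 hy2 hy3
    exact key y hy2 hy3 hy1
  exact tendsto_nhds_unique (hc1.tendsto.mono_left nhdsWithin_le_nhds)
    (tendsto_const_nhds.congr' (hev.mono fun y hy => hy.symm))

/-- `℘ z = ℘ w ↔ z ≡ ± w`. -/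
theorem wp_inj (hΔ : L.g₂ ^ 3 - 27 * L.g₃ ^ 2 ≠ 0) {z w : ℂ} (hz : z ∉ L.lattice)
    (hw : w ∉ L.lattice) (h : ℘[L] z = ℘[L] w) : z - w ∈ L.lattice ∨ z + w ∈ L.lattice := by
  by_contra hcon
  push Not at hcon
  obtain ⟨hm, hp⟩ := hcon
  have hw' : -w ∉ L.lattice := fun hh => hw (by simpa using L.lattice.neg_mem hh)
  have h1 := add_formula L hz hw hp
  have h2 := add_formula L hz hw' (by rwa [← sub_eq_add_neg])
  rw [L.weierstrassP_neg, L.derivWeierstrassP_neg] at h2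
  rw [h, sub_self] at h1 h2
  have h3 : (℘'[L] z - ℘'[L] w) ^ 2 = 0 := by linear_combination -4 * h1
  have h4 : (℘'[L] z - -℘'[L] w) ^ 2 = 0 := by linear_combination -4 * h2
  have h5 : ℘'[L] z - ℘'[L] w = 0 := by simpa using h3
  have h6 : ℘'[L] z - -℘'[L] w = 0 := by simpa using h4
  have h7 : ℘'[L] w = 0 := by
    have : (2 : ℂ) * ℘'[L] w = 0 := by linear_combination h6 - h5
    simpa using this
  have h2w := two_mul_mem_of_wp'_eq_zero L hΔ hw h7
  have h8 := half_formula L hΔ hw h2w hz hp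
  rw [h, sub_self, mul_zero] at h8
  have h9 := L.derivWeierstrassP_sq w hw
  rw [h7] at h9
  exact disc_aux hΔ (e := ℘[L] w) (by linear_combination -h9) (by linear_combination -4 * h8)

theorem wp_surj (x : ℂ) : ∃ z : ℂ, z ∉ L.lattice ∧ ℘[L] z = x := by
  classical
  by_contra hcon
  push Not at hcon
  let f : ℂ → ℂ := fun z => if z ∈ L.lattice then 0 else (℘[L] z - x)⁻¹
  have hdiff : Differentiable ℂ f := by
    intro z
    by_cases hz : z ∈ L.lattice
    · -- near a lattice point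
      let g : ℂ → ℂ := fun y => (y - z) ^ 2 * ℘[L - z] y + 1 - (y - z) ^ 2 / z ^ 2
      have hg : DifferentiableAt ℂ g z := by
        have h1 : DifferentiableAt ℂ ℘[L - z] z := (L.analyticAt_weierstrassPExcept z).differentiableAt
        have h2 : DifferentiableAt ℂ (fun y : ℂ => (y - z) ^ 2) z := by fun_prop
        exact ((h2.mul h1).add_const 1).sub (h2.div_const _)
      have hgz : g z = 1 := by simp [g]
      have hF : DifferentiableAt ℂ (fun y => (y - z) ^ 2 / (g y - x * (y - z) ^ 2)) z := by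
        have h2 : DifferentiableAt ℂ (fun y : ℂ => (y - z) ^ 2) z := by fun_prop
        refine h2.div (hg.sub (h2.const_mul x)) ?_
        simp [hgz]
      refine hF.congr_of_eventuallyEq ?_
      filter_upwards [L.compl_lattice_sdiff_singleton_mem_nhds z] with y hy
      by_cases hyz : y = z
      · subst hyz
        simp [f, hz]
      · have hyL : y ∉ L.lattice := fun hh => hy ⟨hh, hyz⟩
        have h3 := L.ite_eq_one_sub_sq_mul_weierstrassP z hz y
        rw [if_neg hyz] at h3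
        have h4 : (y - z) ^ 2 ≠ 0 := pow_ne_zero 2 (sub_ne_zero.mpr hyz)
        have h5 : ℘[L] y - x ≠ 0 := sub_ne_zero.mpr (hcon y hyL)
        simp only [f, if_neg hyL]
        change _ = (y - z) ^ 2 / (g y - x * (y - z) ^ 2)
        rw [show g y = (y - z) ^ 2 * ℘[L] y from h3.symm,
          show (y - z) ^ 2 * ℘[L] y - x * (y - z) ^ 2 = (y - z) ^ 2 * (℘[L] y - x) by ring]
        field_simp
    · have h1 : DifferentiableAt ℂ (fun y => (℘[L] y - x)⁻¹) z :=
        ((hasDerivAt_wp L hz).differentiableAt.sub_const x).inv (sub_ne_zero.mpr (hcon z hz))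
      refine h1.congr_of_eventuallyEq ?_
      filter_upwards [eventually_notMem L hz] with y hy
      simp [f, hy]
  have hper : ∀ z : ℂ, ∀ l ∈ L.lattice, f (z + l) = f z := by
    intro z l hl
    have h1 : z + l ∈ L.lattice ↔ z ∈ L.lattice :=
      ⟨fun h => by simpa using L.lattice.sub_mem h hl, fun h => L.lattice.add_mem h hl⟩
    have h2 : ℘[L] (z + l) = ℘[L] z := L.weierstrassP_add_coe z ⟨l, hl⟩
    simp only [f, h1, h2]
  have h0 := eq_const_of_periodic L f hdiff hper (L.ω₁ / 2)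
  have h1 : f 0 = 0 := by simp [f]
  rw [h1] at h0
  simp only [f, if_neg L.ω₁_div_two_notMem_lattice, inv_eq_zero] at h0
  exact hcon _ L.ω₁_div_two_notMem_lattice (sub_eq_zero.mp h0)

end Fermat.Agent.MAZ.Ell
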