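import Mathlib

/-!
# MAZ / Ell / [E5]  dependence on the lattice only; homothety

Mathlib only.  All the functions `℘[L]`, `℘'[L]`, `L.G n`, `L.g₂`, `L.g₃` are `tsum`s over
`L.lattice`, so they only depend on the submodule `L.lattice` (`tsum_congr_set_coe` or
`Equiv.tsum_eq` with `Equiv.setCongr`), and scale in the obvious way under `Λ ↦ c Λ`
(`Equiv.tsum_eq` along `l ↦ c l`, then `tsum_mul_left`).
-/

set_option autoImplicit false

open scoped PeriodPair

namespace Fermat.Agent.MAZ.Ell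

/-- the period pair `(c ω₁, c ω₂)`. -/
def smulPair (c : ℂ) (hc : c ≠ 0) (L : PeriodPair) : PeriodPair where
  ω₁ := c * L.ω₁
  ω₂ := c * L.ω₂
  indep := by
    have h := L.indep.map' (LinearMap.mulLeft ℝ c)
      (LinearMap.ker_eq_bot.mpr (mul_right_injective₀ hc))
    have e : (LinearMap.mulLeft ℝ c) ∘ ![L.ω₁, L.ω₂] = ![c * L.ω₁, c * L.ω₂] := by
      ext i
      fin_cases i <;> simp
    rw [e] at h
    exact h

variable {L L' : PeriodPair}

theorem mem_lattice_smulPair {c : ℂ} (hc : c ≠ 0) (L : PeriodPair) (z : ℂ) :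
    c * z ∈ (smulPair c hc L).lattice ↔ z ∈ L.lattice := by
  rw [PeriodPair.mem_lattice, PeriodPair.mem_lattice]
  constructor
  · rintro ⟨m, n, h⟩
    refine ⟨m, n, mul_left_cancel₀ hc ?_⟩
    simp only [smulPair] at h
    linear_combination h
  · rintro ⟨m, n, h⟩
    refine ⟨m, n, ?_⟩
    simp only [smulPair]
    linear_combination c * h

/-- a `tsum` over the lattice only depends on the lattice. -/
theorem tsum_lattice_congr (h : L.lattice = L'.lattice) (f : ℂ → ℂ) :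
    ∑' l : L.lattice, f l = ∑' l : L'.lattice, f l := by
  have hs : (L.lattice : Set ℂ) = (L'.lattice : Set ℂ) := by rw [h]
  exact tsum_congr_set_coe f hs

/-- multiplication by `c` as an equivalence `Λ ≃ cΛ`. -/
noncomputable def smulEquiv {c : ℂ} (hc : c ≠ 0) (L : PeriodPair) :
    L.lattice ≃ (smulPair c hc L).lattice where
  toFun l := ⟨c * l, (mem_lattice_smulPair hc L l).mpr l.2⟩
  invFun l := ⟨c⁻¹ * l, (mem_lattice_smulPair hc L _).mp (by
    rw [mul_inv_cancel_left₀ hc]; exact l.2)⟩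
  left_inv l := by
    ext
    simp [inv_mul_cancel_left₀ hc]
  right_inv l := by
    ext
    simp [mul_inv_cancel_left₀ hc]

theorem tsum_lattice_smulPair {c : ℂ} (hc : c ≠ 0) (L : PeriodPair) (f : ℂ → ℂ) :
    ∑' l : (smulPair c hc L).lattice, f l = ∑' l : L.lattice, f (c * l) := by
  rw [← (smulEquiv hc L).tsum_eq]
  rfl

theorem wp_congr (h : L.lattice = L'.lattice) (z : ℂ) : ℘[L] z = ℘[L'] z :=
  tsum_lattice_congr h (fun l => 1 / (z - l) ^ 2 - 1 / l ^ 2)

theorem wp'_congr (h : L.lattice = L'.lattice) (z : ℂ) : ℘'[L] z = ℘'[L'] z :=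
  congrArg Neg.neg (tsum_lattice_congr h (fun l => 2 / (z - l) ^ 3))

theorem G_congr (h : L.lattice = L'.lattice) (n : ℕ) : L.G n = L'.G n :=
  tsum_lattice_congr h (fun l => (l ^ n)⁻¹)

theorem g₂_congr (h : L.lattice = L'.lattice) : L.g₂ = L'.g₂ := by
  rw [PeriodPair.g₂, PeriodPair.g₂, G_congr h]

theorem g₃_congr (h : L.lattice = L'.lattice) : L.g₃ = L'.g₃ := by
  rw [PeriodPair.g₃, PeriodPair.g₃, G_congr h]

theorem wp_smulPair {c : ℂ} (hc : c ≠ 0) (L : PeriodPair) (z : ℂ) :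
    ℘[smulPair c hc L] (c * z) = (c ^ 2)⁻¹ * ℘[L] z := by
  rw [PeriodPair.weierstrassP, PeriodPair.weierstrassP,
    tsum_lattice_smulPair hc L (fun l => 1 / (c * z - l) ^ 2 - 1 / l ^ 2), ← tsum_mul_left]
  refine tsum_congr fun l => ?_
  rw [← mul_sub, mul_pow, mul_pow, one_div, one_div, one_div, one_div, mul_inv, mul_inv, mul_sub]

theorem wp'_smulPair {c : ℂ} (hc : c ≠ 0) (L : PeriodPair) (z : ℂ) :
    ℘'[smulPair c hc L] (c * z) = (c ^ 3)⁻¹ * ℘'[L] z := by
  rw [PeriodPair.derivWeierstrassP, PeriodPair.derivWeierstrassP,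
    tsum_lattice_smulPair hc L (fun l => 2 / (c * z - l) ^ 3), mul_neg, ← tsum_mul_left]
  congr 1
  refine tsum_congr fun l => ?_
  rw [← mul_sub, mul_pow, div_eq_mul_inv, div_eq_mul_inv, mul_inv]
  ring

theorem G_smulPair {c : ℂ} (hc : c ≠ 0) (L : PeriodPair) (n : ℕ) :
    (smulPair c hc L).G n = (c ^ n)⁻¹ * L.G n := by
  rw [PeriodPair.G, PeriodPair.G, tsum_lattice_smulPair hc L (fun l => (l ^ n)⁻¹),
    ← tsum_mul_left]
  refine tsum_congr fun l => ?_
  rw [mul_pow, mul_inv]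

theorem g₂_smulPair {c : ℂ} (hc : c ≠ 0) (L : PeriodPair) :
    (smulPair c hc L).g₂ = (c ^ 4)⁻¹ * L.g₂ := by
  rw [PeriodPair.g₂, PeriodPair.g₂, G_smulPair hc]
  ring

theorem g₃_smulPair {c : ℂ} (hc : c ≠ 0) (L : PeriodPair) :
    (smulPair c hc L).g₃ = (c ^ 6)⁻¹ * L.g₃ := by
  rw [PeriodPair.g₃, PeriodPair.g₃, G_smulPair hc]
  ring

end Fermat.Agent.MAZ.Ell
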