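import Fermat.Agent.MAZ.Ell.Scale

/-!
# MAZ / Ell / [E6]  the lattice `ℤ + ℤ τ`:  `g₂`, `g₃`, discriminant

Mathlib only.
* `G_tauPair`: reindex `∑' l : lattice` by `Fin 2 → ℤ` (`PeriodPair.latticeEquivProd`,
  `v ↦ v 0 * τ + v 1`), so that `(tauPair τ).G k = ∑' v, eisSummand k v τ`; then
  `tsum_eisSummand_eq_riemannZeta_mul_eisensteinSeries` and `E hk z = (1/2) • eisensteinSeriesSIF ..`
  (see the proof of `EisensteinSeries.q_expansion_riemannZeta`): `G k = 2 ζ(k) E_k(τ)`.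
* `ζ(4) = π⁴/90` (`riemannZeta_four`), `ζ(6) = π⁶/945` (`riemannZeta_two_mul_nat` with `bernoulli 6 = 1/42`).
* `disc_tauPair`: `ModularForm.discriminant_eq_E₄_cube_sub_E₆_sq`.
-/

set_option autoImplicit false

open UpperHalfPlane ModularForm EisensteinSeries
open scoped PeriodPair Real

namespace Fermat.Agent.MAZ.Ell

/-- the period pair `(1, τ)`. -/
def tauPair (τ : ℍ) : PeriodPair where
  ω₁ := 1
  ω₂ := τ
  indep := by
    rw [LinearIndependent.pair_iff]
    intro s t h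
    have him := congrArg Complex.im h
    have hre := congrArg Complex.re h
    simp only [Complex.real_smul, Complex.add_im, Complex.mul_im, Complex.ofReal_re,
      Complex.ofReal_im, Complex.one_im, Complex.one_re, mul_zero, zero_mul, add_zero, zero_add,
      Complex.zero_im, UpperHalfPlane.coe_im, Complex.add_re, Complex.mul_re, mul_one, sub_zero,
      Complex.zero_re, UpperHalfPlane.coe_re] at him hre
    have ht : t = 0 := by
      rcases mul_eq_zero.mp him with h0 | h0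
      · exact h0
      · exact absurd h0 τ.im_pos.ne'
    subst ht
    simp at hre
    exact ⟨hre, rfl⟩

theorem mem_lattice_tauPair {τ : ℍ} {z : ℂ} :
    z ∈ (tauPair τ).lattice ↔ ∃ m n : ℤ, (m : ℂ) * τ + n = z := by
  rw [PeriodPair.mem_lattice]
  constructor
  · rintro ⟨m, n, h⟩
    exact ⟨n, m, by rw [← h]; simp only [tauPair]; ring⟩
  · rintro ⟨m, n, h⟩
    exact ⟨n, m, by rw [← h]; simp only [tauPair]; ring⟩

theorem G_tauPair_eq_tsum (k : ℕ) (τ : ℍ) :
    (tauPair τ).G k = ∑' v : Fin 2 → ℤ, eisSummand k v τ := by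
  rw [PeriodPair.G, ← (tauPair τ).latticeEquivProd.symm.toEquiv.tsum_eq,
    ← ((finTwoArrowEquiv ℤ).trans (Equiv.prodComm ℤ ℤ)).tsum_eq]
  refine tsum_congr fun v => ?_
  have h := (tauPair τ).latticeEquiv_symm_apply (v 1, v 0)
  have h2 : ((tauPair τ).latticeEquivProd.symm.toEquiv
      (((finTwoArrowEquiv ℤ).trans (Equiv.prodComm ℤ ℤ)) v) : ℂ) = (v 0 : ℂ) * τ + v 1 := by
    refine h.trans ?_
    simp only [tauPair]
    ring
  rw [h2, eisSummand, zpow_neg, zpow_natCast]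

theorem G_tauPair {k : ℕ} (hk : 3 ≤ k) (τ : ℍ) :
    (tauPair τ).G k = 2 * riemannZeta k * E hk τ := by
  rw [G_tauPair_eq_tsum, tsum_eisSummand_eq_riemannZeta_mul_eisensteinSeries hk,
    show E hk τ = (1 / 2 : ℂ) • eisensteinSeriesSIF (N := 1) 0 k τ from rfl,
    eisensteinSeriesSIF_apply 0 k τ, smul_eq_mul]
  ring

theorem riemannZeta_six' : riemannZeta 6 = (π : ℂ) ^ 6 / 945 := by
  have h := riemannZeta_two_mul_nat (k := 3) (by norm_num)
  have hb : bernoulli 6 = 1 / 42 := by decide +kernel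
  norm_num [hb, Nat.factorial] at h
  rw [h]
  ring

theorem g₂_tauPair (τ : ℍ) : (tauPair τ).g₂ = 4 * (π : ℂ) ^ 4 / 3 * E₄ τ := by
  rw [PeriodPair.g₂, G_tauPair (by norm_num : 3 ≤ 4)]
  have : riemannZeta ((4 : ℕ) : ℂ) = π ^ 4 / 90 := by
    rw [← riemannZeta_four]; norm_num
  rw [this]
  ring

theorem g₃_tauPair (τ : ℍ) : (tauPair τ).g₃ = 8 * (π : ℂ) ^ 6 / 27 * E₆ τ := by
  rw [PeriodPair.g₃, G_tauPair (by norm_num : 3 ≤ 6)]
  have : riemannZeta ((6 : ℕ) : ℂ) = π ^ 6 / 945 := by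
    rw [← riemannZeta_six']; norm_num
  rw [this]
  ring

theorem disc_tauPair (τ : ℍ) :
    (tauPair τ).g₂ ^ 3 - 27 * (tauPair τ).g₃ ^ 2 = (2 * (π : ℂ)) ^ 12 * discriminant τ := by
  rw [g₂_tauPair, g₃_tauPair, discriminant_eq_E₄_cube_sub_E₆_sq]
  ring

end Fermat.Agent.MAZ.Ell
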